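import Mathlib
import Fermat.Agent.LT.T3.Spec

/-!
# Row LT, tower T3, leaf T3.01 `StdCharExistsC` (helper276)

OFF-MAIN.  `stdCharExists276 : StdCharExistsC K` for every number field `K`: a continuous additive
character of `𝔸_K`, trivial on `K`, not identically `1` (Tate's thesis §4.1).

Construction (no local traces, no different):
* `𝔸_K^f = K + ∏_v 𝒪_v` (`exists_approx276`: density of `K` in `K_v`, then partial fractions in
  `K` by the Chinese remainder theorem, `exists_partial276`);
* `K ∩ ∏_v 𝒪_v = 𝒪_K` and `Tr_{K/ℚ}(𝒪_K) ⊆ ℤ`, so `ψ_f(ξ + u) := e(Tr_{K/ℚ} ξ)` (`ξ ∈ K`,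
  `u ∈ ∏ 𝒪_v`) is a well defined additive character of `𝔸_K^f`, trivial on the OPEN subgroup
  `∏ 𝒪_v`, hence continuous (`psiFin276`);
* `ψ_∞(y) := e(-∑_w m_w Re(ι_w y_w))` on `K_∞ = ∏_w K_w` (`m_w = 1, 2`), and
  `∑_w m_w Re(ι_w ξ) = Tr_{K/ℚ} ξ` for `ξ ∈ K` (`trace_eq_sum_places276`);
* `ψ = ψ_∞ ψ_f` is trivial on `K`; `ψ((ξ₀)_∞, 0) = e(-1/2) = -1` for `ξ₀ = 1 / (2 [K:ℚ])`.
-/

set_option autoImplicit false
set_option linter.unusedSectionVars false

open IsDedekindDomain NumberField
open Fermat.Agent.LT.H556.A0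

noncomputable section

namespace Fermat.Agent.LT.T3.H276

variable (K : Type) [Field K] [NumberField K]

/-! ## The trace as a sum over the infinite places -/

theorem trace_eq_sum_places276 (ξ : K) :
    ((Algebra.trace ℚ K ξ : ℚ) : ℝ)
      = ∑ w : InfinitePlace K, (w.mult : ℝ) * (w.embedding ξ).re := by
  classical
  have h1 : (algebraMap ℚ ℂ (Algebra.trace ℚ K ξ)) = ∑ φ : K →+* ℂ, φ ξ := by
    rw [trace_eq_sum_embeddings (K := ℚ) (L := K) ℂ]
    exact (Fintype.sum_equiv (RingHom.equivRatAlgHom K ℂ) _ _ (fun σ => rfl)).symm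
  have h2 : ((Algebra.trace ℚ K ξ : ℚ) : ℝ) = ∑ φ : K →+* ℂ, (φ ξ).re := by
    have := congrArg Complex.re h1
    simpa [Complex.re_sum] using this
  rw [h2, ← Finset.sum_fiberwise (s := Finset.univ) (g := InfinitePlace.mk)]
  refine Finset.sum_congr rfl fun w _ => ?_
  have hconst : ∀ φ ∈ (Finset.univ.filter fun φ : K →+* ℂ => InfinitePlace.mk φ = w),
      (φ ξ).re = (w.embedding ξ).re := by
    intro φ hφ
    have hφw : InfinitePlace.mk φ = InfinitePlace.mk w.embedding := by
      rw [InfinitePlace.mk_embedding]; exact (Finset.mem_filter.1 hφ).2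
    rcases InfinitePlace.mk_eq_iff.1 hφw with h | h
    · rw [h]
    · rw [← h]; simp [ComplexEmbedding.conjugate_coe_eq]
  rw [Finset.sum_congr rfl hconst, Finset.sum_const, InfinitePlace.card_filter_mk_eq, nsmul_eq_mul]


/-! ## Partial fractions in `K` and the decomposition `𝔸_K^f = K + ∏ 𝒪_v` -/

open IsDedekindDomain.HeightOneSpectrum in
/-- Partial fractions: prescribed principal parts `y v` at the places of a finite set `S`,
integral elsewhere. -/
theorem exists_partial276 (S : Finset (HeightOneSpectrum (𝓞 K)))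
    (y : HeightOneSpectrum (𝓞 K) → K) :
    ∃ ξ : K, (∀ v ∈ S, v.valuation K (ξ - y v) ≤ 1) ∧ ∀ v ∉ S, v.valuation K ξ ≤ 1 := by
  classical
  -- a common denominator
  obtain ⟨b, hb0, a, ha⟩ : ∃ b : 𝓞 K, b ≠ 0 ∧ ∃ a : HeightOneSpectrum (𝓞 K) → 𝓞 K,
      ∀ v ∈ S, y v * algebraMap (𝓞 K) K b = algebraMap (𝓞 K) K (a v) := by
    choose n d hd using fun v => IsFractionRing.div_surjective (𝓞 K) (y v)
    refine ⟨∏ v ∈ S, d v, ?_, fun v => n v * ∏ w ∈ S.erase v, d w, fun v hv => ?_⟩
    · exact Finset.prod_ne_zero_iff.2 fun v _ => nonZeroDivisors.ne_zero (hd v).1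
    · have hdv : algebraMap (𝓞 K) K (d v) ≠ 0 := by
        simpa using nonZeroDivisors.ne_zero (hd v).1
      rw [← Finset.mul_prod_erase S d hv, ← (hd v).2, map_mul, map_mul]
      field_simp
  have hbK : algebraMap (𝓞 K) K b ≠ 0 := by simpa using hb0
  -- the primes dividing `b`
  have hTfin : {v : HeightOneSpectrum (𝓞 K) | v.asIdeal ∣ Ideal.span {b}}.Finite :=
    Ideal.finite_factors (by simpa [Ideal.span_singleton_eq_bot] using hb0)
  set T : Finset (HeightOneSpectrum (𝓞 K)) := S ∪ hTfin.toFinset with hT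
  have hexp : ∀ v : HeightOneSpectrum (𝓞 K),
      ∃ n : ℕ, WithZero.exp (-(n : ℤ)) ≤ v.intValuation b :=
    fun v => ⟨_, (v.intValuation_eq_exp_neg_multiplicity hb0).ge⟩
  choose e he using hexp
  obtain ⟨β, hβ⟩ := IsDedekindDomain.exists_forall_sub_mem_ideal (s := T)
    (fun v => v.asIdeal) e (fun v _ => v.prime)
    (fun v _ w _ hvw h => hvw (HeightOneSpectrum.ext h))
    (fun v => if (v : HeightOneSpectrum (𝓞 K)) ∈ S then a v else 0)
  refine ⟨algebraMap (𝓞 K) K β / algebraMap (𝓞 K) K b, fun v hv => ?_, fun v hv => ?_⟩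
  · have hvT : v ∈ T := Finset.mem_union_left _ hv
    have h1 := hβ v hvT
    simp only [hv, if_true] at h1
    have h2 : v.intValuation (β - a v) ≤ v.intValuation b :=
      ((v.intValuation_le_pow_iff_mem _ _).2 h1).trans (he v)
    have h3 : algebraMap (𝓞 K) K β / algebraMap (𝓞 K) K b - y v
        = algebraMap (𝓞 K) K (β - a v) / algebraMap (𝓞 K) K b := by
      rw [map_sub, ← ha v hv]; field_simp
    rw [h3, map_div₀, valuation_of_algebraMap, valuation_of_algebraMap]
    exact div_le_one_of_le₀ h2 zero_le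
  · rw [map_div₀, valuation_of_algebraMap, valuation_of_algebraMap]
    by_cases hvT : v ∈ T
    · have h1 := hβ v hvT
      simp only [hv, if_false, sub_zero] at h1
      exact div_le_one_of_le₀ (((v.intValuation_le_pow_iff_mem _ _).2 h1).trans (he v)) zero_le
    · have hvb : v.intValuation b = 1 := by
        have h4 : ¬ v.asIdeal ∣ Ideal.span {b} := fun h =>
          hvT (Finset.mem_union_right _ (by simpa using h))
        rw [← v.intValuation_lt_one_iff_dvd, not_lt] at h4
        exact le_antisymm (v.intValuation_le_one b) h4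
      rw [hvb, div_one]
      exact v.intValuation_le_one β

open IsDedekindDomain.HeightOneSpectrum in
theorem algebraMap_mem_integers_iff276 (v : HeightOneSpectrum (𝓞 K)) (ξ : K) :
    algebraMap K (v.adicCompletion K) ξ ∈ v.adicCompletionIntegers K ↔ v.valuation K ξ ≤ 1 := by
  rw [mem_adicCompletionIntegers, ← valuedAdicCompletion_eq_valuation' v ξ]
  rfl

open IsDedekindDomain.HeightOneSpectrum in
/-- `𝔸_K^f = K + ∏_v 𝒪_v`. -/
theorem exists_approx276 (x : FiniteAdeleRing (𝓞 K) K) :
    ∃ ξ : K, ∀ v : HeightOneSpectrum (𝓞 K),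
      x v - algebraMap K (v.adicCompletion K) ξ ∈ v.adicCompletionIntegers K := by
  classical
  have hS : {v : HeightOneSpectrum (𝓞 K) | x v ∉ v.adicCompletionIntegers K}.Finite := by
    have h0 := x.2
    rw [Filter.eventually_cofinite] at h0
    exact h0
  have hloc : ∀ v : HeightOneSpectrum (𝓞 K), ∃ y : K,
      x v - algebraMap K (v.adicCompletion K) y ∈ v.adicCompletionIntegers K := by
    intro v
    have hopen : IsOpen {z : v.adicCompletion K | x v - z ∈ v.adicCompletionIntegers K} := by
      have h0 : IsOpen ((v.adicCompletionIntegers K : Set (v.adicCompletion K))) :=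
        Valued.isOpen_valuationSubring _
      exact h0.preimage (continuous_const.sub continuous_id)
    exact (denseRange_algebraMap K v).exists_mem_open hopen ⟨x v, by simp⟩
  choose y hy using hloc
  obtain ⟨ξ, hξ1, hξ2⟩ := exists_partial276 K hS.toFinset y
  refine ⟨ξ, fun v => ?_⟩
  by_cases hv : v ∈ hS.toFinset
  · have h1 : algebraMap K (v.adicCompletion K) (y v - ξ) ∈ v.adicCompletionIntegers K := by
      rw [algebraMap_mem_integers_iff276, ← Valuation.map_sub_swap]
      exact hξ1 v hv
    have h2 := add_mem (hy v) h1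
    rw [map_sub] at h2
    convert h2 using 1
    ring
  · have hxv : x v ∈ v.adicCompletionIntegers K := by simpa using hv
    exact sub_mem hxv ((algebraMap_mem_integers_iff276 K v ξ).2 (hξ2 v hv))


/-! ## The finite part of the character -/

theorem fourierChar_intCast276 (n : ℤ) : Real.fourierChar (n : ℝ) = 1 := by
  rw [Real.fourierChar_apply']
  exact Circle.exp_two_pi_mul_int n

/-- The trace of an everywhere integral element of `K` is an integer. -/
theorem fourierChar_trace_eq_one276 (ξ : K)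
    (h : ∀ v : HeightOneSpectrum (𝓞 K), v.valuation K ξ ≤ 1) :
    Real.fourierChar (((Algebra.trace ℚ K ξ : ℚ) : ℝ)) = 1 := by
  obtain ⟨r, rfl⟩ := HeightOneSpectrum.mem_integers_of_valuation_le_one K ξ h
  have h1 := Algebra.algebraMap_intTrace (A := ℤ) (K := ℚ) (L := K) (B := 𝓞 K) r
  rw [← h1]
  have h2 : ((algebraMap ℤ ℚ (Algebra.intTrace ℤ (𝓞 K) r) : ℚ) : ℝ)
      = ((Algebra.intTrace ℤ (𝓞 K) r : ℤ) : ℝ) := by
    simp
  rw [h2]
  exact fourierChar_intCast276 _

/-- A global approximant of the finite adele `x`. -/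
def finTr276 (x : FiniteAdeleRing (𝓞 K) K) : K := Classical.choose (exists_approx276 K x)

theorem finTr_spec276 (x : FiniteAdeleRing (𝓞 K) K) (v : HeightOneSpectrum (𝓞 K)) :
    x v - algebraMap K (v.adicCompletion K) (finTr276 K x) ∈ v.adicCompletionIntegers K :=
  Classical.choose_spec (exists_approx276 K x) v

/-- `ψ_f(ξ + u) = e(Tr ξ)`. -/
def psiFinFun276 (x : FiniteAdeleRing (𝓞 K) K) : Circle :=
  Real.fourierChar (((Algebra.trace ℚ K (finTr276 K x) : ℚ) : ℝ))

theorem psiFinFun_eq276 (x : FiniteAdeleRing (𝓞 K) K) (ξ : K)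
    (h : ∀ v : HeightOneSpectrum (𝓞 K),
      x v - algebraMap K (v.adicCompletion K) ξ ∈ v.adicCompletionIntegers K) :
    psiFinFun276 K x = Real.fourierChar (((Algebra.trace ℚ K ξ : ℚ) : ℝ)) := by
  have hint : ∀ v : HeightOneSpectrum (𝓞 K), v.valuation K (ξ - finTr276 K x) ≤ 1 := by
    intro v
    rw [← algebraMap_mem_integers_iff276]
    have h0 := sub_mem (finTr_spec276 K x v) (h v)
    rw [map_sub]
    convert h0 using 1
    ring
  have h1 := fourierChar_trace_eq_one276 K _ hint
  rw [map_sub, Rat.cast_sub, sub_eq_add_neg, AddChar.map_add_eq_mul, AddChar.map_neg_eq_inv]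
    at h1
  unfold psiFinFun276
  exact (mul_inv_eq_one.1 h1).symm

theorem fin_add_apply276 (x y : FiniteAdeleRing (𝓞 K) K) (v : HeightOneSpectrum (𝓞 K)) :
    (x + y) v = x v + y v := rfl

theorem fin_sub_apply276 (x y : FiniteAdeleRing (𝓞 K) K) (v : HeightOneSpectrum (𝓞 K)) :
    (x - y) v = x v - y v := rfl

theorem fin_zero_apply276 (v : HeightOneSpectrum (𝓞 K)) :
    (0 : FiniteAdeleRing (𝓞 K) K) v = 0 := rfl

/-- The finite part `ψ_f` of the standard character. -/
def psiFin276 : AddChar (FiniteAdeleRing (𝓞 K) K) Circle where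
  toFun := psiFinFun276 K
  map_zero_eq_one' := by
    rw [psiFinFun_eq276 K 0 0 (fun v => by rw [fin_zero_apply276, map_zero, sub_zero]; exact zero_mem _)]
    simp
  map_add_eq_mul' x y := by
    rw [psiFinFun_eq276 K (x + y) (finTr276 K x + finTr276 K y) ?_]
    · unfold psiFinFun276
      rw [map_add, Rat.cast_add, AddChar.map_add_eq_mul]
    · intro v
      have h0 := add_mem (finTr_spec276 K x v) (finTr_spec276 K y v)
      rw [map_add, fin_add_apply276]
      convert h0 using 1
      ring

theorem psiFin_apply276 (x : FiniteAdeleRing (𝓞 K) K) : psiFin276 K x = psiFinFun276 K x := rfl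

theorem psiFin_of_integral276 (u : FiniteAdeleRing (𝓞 K) K)
    (hu : ∀ v : HeightOneSpectrum (𝓞 K), u v ∈ v.adicCompletionIntegers K) :
    psiFin276 K u = 1 := by
  rw [psiFin_apply276, psiFinFun_eq276 K u 0 (fun v => by rw [map_zero, sub_zero]; exact hu v)]
  simp

theorem psiFin_algebraMap276 (ξ : K) :
    psiFin276 K (algebraMap K (FiniteAdeleRing (𝓞 K) K) ξ)
      = Real.fourierChar (((Algebra.trace ℚ K ξ : ℚ) : ℝ)) := by
  rw [psiFin_apply276]
  refine psiFinFun_eq276 K _ ξ (fun v => ?_)
  have h0 : (algebraMap K (FiniteAdeleRing (𝓞 K) K) ξ) v = algebraMap K (v.adicCompletion K) ξ :=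
    rfl
  rw [h0, sub_self]
  exact zero_mem _

theorem continuous_psiFin276 : Continuous (psiFin276 K) := by
  have hopen : IsOpen {u : FiniteAdeleRing (𝓞 K) K |
      ∀ v : HeightOneSpectrum (𝓞 K), u v ∈ v.adicCompletionIntegers K} :=
    RestrictedProduct.isOpen_forall_mem (fun v => Valued.isOpen_valuationSubring _)
  rw [continuous_iff_continuousAt]
  intro x
  have hsub : Continuous fun z : FiniteAdeleRing (𝓞 K) K => z - x :=
    continuous_id.sub continuous_const
  have hnhds : {z : FiniteAdeleRing (𝓞 K) K |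
      ∀ v : HeightOneSpectrum (𝓞 K), (z - x) v ∈ v.adicCompletionIntegers K} ∈ nhds x := by
    refine (hopen.preimage hsub).mem_nhds ?_
    intro v
    simp only [sub_self]
    exact zero_mem _
  refine (continuousAt_const (y := psiFin276 K x)).congr ?_
  filter_upwards [hnhds] with z hz
  have h1 : psiFin276 K z = psiFin276 K (z - x) * psiFin276 K x := by
    rw [← AddChar.map_add_eq_mul, sub_add_cancel]
  rw [h1, psiFin_of_integral276 K _ hz, one_mul]

/-! ## The infinite part of the character -/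

/-- `∑_w m_w Re(ι_w y_w)`. -/
def trInf276 (y : InfiniteAdeleRing K) : ℝ :=
  ∑ w : InfinitePlace K,
    (w.mult : ℝ) * (InfinitePlace.Completion.extensionEmbedding w (y w)).re

theorem inf_add_apply276 (y z : InfiniteAdeleRing K) (w : InfinitePlace K) :
    (y + z) w = y w + z w := rfl

theorem inf_zero_apply276 (w : InfinitePlace K) : (0 : InfiniteAdeleRing K) w = 0 := rfl

theorem trInf_add276 (y z : InfiniteAdeleRing K) :
    trInf276 K (y + z) = trInf276 K y + trInf276 K z := by
  simp only [trInf276, inf_add_apply276, map_add, Complex.add_re, mul_add,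
    Finset.sum_add_distrib]

theorem trInf_zero276 : trInf276 K 0 = 0 := by
  simp only [trInf276, inf_zero_apply276, map_zero, Complex.zero_re, mul_zero,
    Finset.sum_const_zero]

theorem continuous_trInf276 : Continuous (trInf276 K) := by
  unfold trInf276
  refine continuous_finsetSum _ fun w _ => continuous_const.mul ?_
  exact Complex.continuous_re.comp
    ((InfinitePlace.Completion.isometry_extensionEmbedding w).continuous.comp
      (continuous_apply w))

theorem trInf_algebraMap276 (ξ : K) :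
    trInf276 K (algebraMap K (InfiniteAdeleRing K) ξ) = ((Algebra.trace ℚ K ξ : ℚ) : ℝ) := by
  rw [trace_eq_sum_places276]
  refine Finset.sum_congr rfl fun w _ => ?_
  congr 2
  rw [InfiniteAdeleRing.algebraMap_apply]
  exact InfinitePlace.Completion.extensionEmbedding_coe w _

/-- The infinite part `ψ_∞` of the standard character. -/
def psiInf276 : AddChar (InfiniteAdeleRing K) Circle where
  toFun y := Real.fourierChar (-(trInf276 K y))
  map_zero_eq_one' := by rw [trInf_zero276, neg_zero, AddChar.map_zero_eq_one]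
  map_add_eq_mul' y z := by rw [trInf_add276, neg_add, AddChar.map_add_eq_mul]

theorem psiInf_apply276 (y : InfiniteAdeleRing K) :
    psiInf276 K y = Real.fourierChar (-(trInf276 K y)) := rfl

theorem continuous_psiInf276 : Continuous (psiInf276 K) := by
  show Continuous fun y => Real.fourierChar (-(trInf276 K y))
  exact Real.continuous_fourierChar.comp (continuous_trInf276 K).neg

/-! ## The standard character -/

/-- The standard character `ψ = ψ_∞ ψ_f` of `𝔸_K`. -/
def psi276 : AddChar (Adl K) Circle where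
  toFun x := psiInf276 K x.1 * psiFin276 K x.2
  map_zero_eq_one' := by
    have h1 : (0 : Adl K).1 = 0 := rfl
    have h2 : (0 : Adl K).2 = 0 := rfl
    rw [h1, h2, AddChar.map_zero_eq_one, AddChar.map_zero_eq_one, one_mul]
  map_add_eq_mul' x y := by
    have h1 : (x + y).1 = x.1 + y.1 := rfl
    have h2 : (x + y).2 = x.2 + y.2 := rfl
    rw [h1, h2, AddChar.map_add_eq_mul, AddChar.map_add_eq_mul]
    exact mul_mul_mul_comm _ _ _ _

theorem psi_apply276 (x : Adl K) : psi276 K x = psiInf276 K x.1 * psiFin276 K x.2 := rfl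

theorem continuous_psi276 : Continuous (psi276 K) := by
  show Continuous fun x : Adl K => psiInf276 K x.1 * psiFin276 K x.2
  have h1 : Continuous fun x : Adl K => x.1 := continuous_fst
  have h2 : Continuous fun x : Adl K => x.2 := continuous_snd
  exact ((continuous_psiInf276 K).comp h1).mul ((continuous_psiFin276 K).comp h2)

theorem psi_algebraMap276 (ξ : K) : psi276 K (emb K ξ) = 1 := by
  have h1 : (emb K ξ).1 = algebraMap K (InfiniteAdeleRing K) ξ := rfl
  have h2 : (emb K ξ).2 = algebraMap K (FiniteAdeleRing (𝓞 K) K) ξ := rfl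
  rw [psi_apply276, h1, h2, psiInf_apply276, trInf_algebraMap276, psiFin_algebraMap276,
    ← AddChar.map_add_eq_mul, neg_add_cancel, AddChar.map_zero_eq_one]

theorem psi_nontrivial276 : ∃ x : Adl K, psi276 K x ≠ 1 := by
  set d : ℕ := Module.finrank ℚ K with hd
  have hdpos : 0 < d := Module.finrank_pos
  set ξ₀ : K := algebraMap ℚ K ((2 * (d : ℚ))⁻¹) with hξ₀
  have htr : ((Algebra.trace ℚ K ξ₀ : ℚ) : ℝ) = 2⁻¹ := by
    rw [hξ₀, Algebra.trace_algebraMap]
    have hd0 : (d : ℚ) ≠ 0 := by exact_mod_cast hdpos.ne'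
    have : (d : ℚ) • (2 * (d : ℚ))⁻¹ = 2⁻¹ := by
      rw [smul_eq_mul]; field_simp
    rw [hd] at this ⊢
    rw [Nat.cast_smul_eq_nsmul] at this
    rw [this]; norm_num
  let x₀ : Adl K := (show InfiniteAdeleRing K × FiniteAdeleRing (𝓞 K) K from
    (algebraMap K (InfiniteAdeleRing K) ξ₀, 0))
  have h1 : x₀.1 = algebraMap K (InfiniteAdeleRing K) ξ₀ := rfl
  have h2 : x₀.2 = 0 := rfl
  refine ⟨x₀, ?_⟩
  rw [psi_apply276, h1, h2, AddChar.map_zero_eq_one, mul_one, psiInf_apply276,
    trInf_algebraMap276, htr, AddChar.map_neg_eq_inv, Ne, inv_eq_one,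
    Real.fourierChar_apply']
  rw [mul_comm, ← mul_assoc, inv_mul_cancel₀ (by positivity), one_mul]
  exact Circle.exp_pi_ne_one

/-- **T3.01** `StdCharExistsC K`, unconditional. -/
theorem stdCharExists276 : StdCharExistsC K :=
  ⟨psi276 K, ⟨continuous_psi276 K, psi_algebraMap276 K, psi_nontrivial276 K⟩⟩

end Fermat.Agent.LT.T3.H276

end
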