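import Mathlib
import Fermat.Agent.LT.T3.Spec
import Fermat.Agent.LT.T3.H276.StdChar

/-!
# Row LT, tower T3, leaf T3.01 (v2) `GoodCharExistsC` (helper276)

OFF-MAIN.  `goodCharExists276 : GoodCharExistsC K` for every number field `K`, unconditional:
the standard character `psi276 K` of `StdChar.lean` is NON-DEGENERATE and has conductor `𝒪_v` at
almost all finite places.

* `exists_den276`: the trace dual of `𝒪_K` has bounded denominators (`FractionalIdeal.dual`).
* `exists_bad_trace276`: if `exp(-N) < v(D)` there is `ξ ∈ K`, integral away from `v`,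
  `v(ξ) ≤ exp N`, with `Tr ξ ∉ ℤ` (partial fractions `exists_partial276` with principal part
  `π⁻ᴺ` at `v`).
* non-degeneracy at the infinite places: `y_w = 4⁻¹ x_w⁻¹`; at the finite places:
  `y_v = ξ x_v⁻¹`.
-/

set_option autoImplicit false
set_option linter.unusedSectionVars false

open IsDedekindDomain NumberField
open Fermat.Agent.LT.H556.A0
open scoped WithZero

noncomputable section

namespace Fermat.Agent.LT.T3.H276

variable (K : Type) [Field K] [NumberField K]

/-! ## `e(t) = 1 ↔ t ∈ ℤ` -/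

theorem fourierChar_eq_one_iff276 (t : ℝ) : Real.fourierChar t = 1 ↔ ∃ n : ℤ, t = n := by
  rw [Real.fourierChar_apply', Circle.exp_eq_one]
  have hpi : (2 * Real.pi) ≠ 0 := by positivity
  constructor
  · rintro ⟨n, hn⟩
    refine ⟨n, ?_⟩
    have : (2 * Real.pi) * t = (2 * Real.pi) * n := by rw [hn]; ring
    exact mul_left_cancel₀ hpi this
  · rintro ⟨n, rfl⟩
    exact ⟨n, by ring⟩

/-! ## Bounded denominators of the trace dual -/

theorem exists_den276 : ∃ D : 𝓞 K, D ≠ 0 ∧ ∀ ξ : K,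
    (∀ a : 𝓞 K, ∃ n : ℤ, Algebra.trace ℚ K (ξ * algebraMap (𝓞 K) K a) = (n : ℚ)) →
    ∃ r : 𝓞 K, algebraMap (𝓞 K) K D * ξ = algebraMap (𝓞 K) K r := by
  have h1 : (1 : FractionalIdeal (nonZeroDivisors (𝓞 K)) K) ≠ 0 := one_ne_zero
  obtain ⟨D, hD, hint⟩ :=
    (FractionalIdeal.dual ℤ ℚ (1 : FractionalIdeal (nonZeroDivisors (𝓞 K)) K)).isFractional
  refine ⟨D, nonZeroDivisors.ne_zero hD, fun ξ hξ => ?_⟩
  have hmem : ξ ∈ FractionalIdeal.dual ℤ ℚ (1 : FractionalIdeal (nonZeroDivisors (𝓞 K)) K) := by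
    rw [FractionalIdeal.mem_dual h1]
    intro a ha
    obtain ⟨a', rfl⟩ := (FractionalIdeal.mem_one_iff _).1 ha
    obtain ⟨n, hn⟩ := hξ a'
    exact ⟨n, by rw [Algebra.traceForm_apply, hn]; simp⟩
  obtain ⟨r, hr⟩ := hint ξ hmem
  exact ⟨r, by rw [hr, Algebra.smul_def]⟩

open IsDedekindDomain.HeightOneSpectrum in
theorem exists_bad_trace276 (D : 𝓞 K)
    (hD : ∀ ξ : K,
      (∀ a : 𝓞 K, ∃ n : ℤ, Algebra.trace ℚ K (ξ * algebraMap (𝓞 K) K a) = (n : ℚ)) →
      ∃ r : 𝓞 K, algebraMap (𝓞 K) K D * ξ = algebraMap (𝓞 K) K r)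
    (v : HeightOneSpectrum (𝓞 K)) (N : ℕ)
    (hN : WithZero.exp (-(N : ℤ)) < v.intValuation D) :
    ∃ ξ : K, v.valuation K ξ ≤ WithZero.exp (N : ℤ) ∧
      (∀ v' : HeightOneSpectrum (𝓞 K), v' ≠ v → v'.valuation K ξ ≤ 1) ∧
      ¬ ∃ n : ℤ, Algebra.trace ℚ K ξ = (n : ℚ) := by
  classical
  obtain ⟨π, hπ⟩ := v.valuation_exists_uniformizer K
  have hy : v.valuation K ((π⁻¹) ^ N) = WithZero.exp (N : ℤ) := by
    rw [map_pow, map_inv₀, hπ, ← WithZero.exp_neg, neg_neg, ← WithZero.exp_nsmul]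
    simp
  obtain ⟨ξ₀, h1, h2⟩ := exists_partial276 K {v} (fun _ => (π⁻¹) ^ N)
  have h1v := h1 v (Finset.mem_singleton_self v)
  have hNpos : (1 : ℤᵐ⁰) < WithZero.exp (N : ℤ) := by
    have h3 : v.intValuation D ≤ 1 := v.intValuation_le_one D
    have h4 : WithZero.exp (-(N : ℤ)) < WithZero.exp (0 : ℤ) := by
      rw [WithZero.exp_zero]; exact lt_of_lt_of_le hN h3
    have h5 : (-(N : ℤ)) < 0 := WithZero.exp_lt_exp.1 h4
    rw [← WithZero.exp_zero, WithZero.exp_lt_exp]
    omega
  have hξ₀ : v.valuation K ξ₀ = WithZero.exp (N : ℤ) := by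
    have h6 : v.valuation K (ξ₀ - (π⁻¹) ^ N) < v.valuation K ((π⁻¹) ^ N) := by
      rw [hy]; exact lt_of_le_of_lt h1v hNpos
    have h7 := Valuation.map_add_eq_of_lt_left (v.valuation K) h6
    rw [add_comm, sub_add_cancel] at h7
    rw [h7, hy]
  have hbig : (1 : ℤᵐ⁰) < v.valuation K (algebraMap (𝓞 K) K D * ξ₀) := by
    rw [map_mul, valuation_of_algebraMap, hξ₀]
    have h8 : WithZero.exp (-(N : ℤ)) * WithZero.exp (N : ℤ) = 1 := by
      rw [← WithZero.exp_add]; simp
    rw [← h8]
    exact mul_lt_mul_of_pos_right hN (by simp)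
  have hnot : ¬ ∀ a : 𝓞 K, ∃ n : ℤ,
      Algebra.trace ℚ K (ξ₀ * algebraMap (𝓞 K) K a) = (n : ℚ) := by
    intro hall
    obtain ⟨r, hr⟩ := hD ξ₀ hall
    rw [hr, valuation_of_algebraMap] at hbig
    exact absurd (v.intValuation_le_one r) (not_le.2 hbig)
  push Not at hnot
  obtain ⟨a, ha⟩ := hnot
  refine ⟨ξ₀ * algebraMap (𝓞 K) K a, ?_, fun v' hv' => ?_, fun ⟨n, hn⟩ => ha n hn⟩
  · rw [map_mul, hξ₀]
    exact mul_le_of_le_one_right' (v.valuation_le_one a)
  · rw [map_mul]
    exact mul_le_one' (h2 v' (by simpa using hv')) (v'.valuation_le_one a)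


/-! ## Local adeles -/

/-- The finite adele supported at `v` with component `t`. -/
def locFin276 (v : HeightOneSpectrum (𝓞 K)) (t : v.adicCompletion K) :
    FiniteAdeleRing (𝓞 K) K := by
  classical
  exact ⟨Pi.single v t, by
    rw [Filter.eventually_cofinite]
    refine (Set.finite_singleton v).subset fun v' hv' => ?_
    by_contra hne
    apply hv'
    simp only [Set.mem_singleton_iff] at hne
    rw [Pi.single_eq_of_ne hne]
    exact zero_mem _⟩

theorem locFin_same276 (v : HeightOneSpectrum (𝓞 K)) (t : v.adicCompletion K) :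
    locFin276 K v t v = t := by
  classical
  show (Pi.single v t : ∀ v' : HeightOneSpectrum (𝓞 K), v'.adicCompletion K) v = t
  exact Pi.single_eq_same v t

theorem locFin_ne276 (v : HeightOneSpectrum (𝓞 K)) (t : v.adicCompletion K)
    (v' : HeightOneSpectrum (𝓞 K)) (h : v' ≠ v) : locFin276 K v t v' = 0 := by
  classical
  show (Pi.single v t : ∀ v' : HeightOneSpectrum (𝓞 K), v'.adicCompletion K) v' = 0
  exact Pi.single_eq_of_ne h t

theorem fin_mul_apply276 (x y : FiniteAdeleRing (𝓞 K) K) (v : HeightOneSpectrum (𝓞 K)) :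
    (x * y) v = x v * y v := rfl

open IsDedekindDomain.HeightOneSpectrum in
theorem psiFin_locFin276 (v : HeightOneSpectrum (𝓞 K)) (ξ : K)
    (hξ : ∀ v' : HeightOneSpectrum (𝓞 K), v' ≠ v → v'.valuation K ξ ≤ 1) :
    psiFin276 K (locFin276 K v (algebraMap K (v.adicCompletion K) ξ))
      = Real.fourierChar (((Algebra.trace ℚ K ξ : ℚ) : ℝ)) := by
  rw [psiFin_apply276]
  refine psiFinFun_eq276 K _ ξ (fun v' => ?_)
  by_cases h : v' = v
  · subst h
    rw [locFin_same276, sub_self]
    exact zero_mem _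
  · rw [locFin_ne276 K v _ v' h, zero_sub]
    exact neg_mem ((algebraMap_mem_integers_iff276 K v' ξ).2 (hξ v' h))

/-- The adele with infinite part `a` and finite part `b`. -/
def mkAdl276 (a : InfiniteAdeleRing K) (b : FiniteAdeleRing (𝓞 K) K) : Adl K :=
  (show InfiniteAdeleRing K × FiniteAdeleRing (𝓞 K) K from (a, b))

theorem mkAdl_fst276 (a : InfiniteAdeleRing K) (b : FiniteAdeleRing (𝓞 K) K) :
    (mkAdl276 K a b).1 = a := rfl

theorem mkAdl_snd276 (a : InfiniteAdeleRing K) (b : FiniteAdeleRing (𝓞 K) K) :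
    (mkAdl276 K a b).2 = b := rfl

theorem adl_mul_fst276 (x y : Adl K) : (x * y).1 = x.1 * y.1 := rfl

theorem adl_mul_snd276 (x y : Adl K) : (x * y).2 = x.2 * y.2 := rfl

theorem inf_mul_apply276 (y z : InfiniteAdeleRing K) (w : InfinitePlace K) :
    (y * z) w = y w * z w := rfl

/-! ## Non-degeneracy -/

open IsDedekindDomain.HeightOneSpectrum in
theorem psi_nonDeg276 : IsNonDeg K (psi276 K) := by
  classical
  intro x hx
  have hinf : x.1 = 0 := by
    funext w
    by_contra hw
    have hw' : x.1 w ≠ 0 := hw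
    let yInf : InfiniteAdeleRing K := Pi.single w ((4 : w.Completion)⁻¹ * (x.1 w)⁻¹)
    have hy := hx (mkAdl276 K yInf 0)
    rw [psi_apply276, adl_mul_fst276, adl_mul_snd276, mkAdl_fst276, mkAdl_snd276, mul_zero,
      AddChar.map_zero_eq_one, mul_one, psiInf_apply276, fourierChar_eq_one_iff276] at hy
    obtain ⟨n, hn⟩ := hy
    have htr : trInf276 K (x.1 * yInf) = (w.mult : ℝ) * 4⁻¹ := by
      unfold trInf276
      rw [Finset.sum_eq_single w]
      · have h1 : (x.1 * yInf) w = (4 : w.Completion)⁻¹ := by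
          rw [inf_mul_apply276]
          simp only [yInf, Pi.single_eq_same]
          field_simp
        rw [h1, map_inv₀, map_ofNat]
        norm_num
      · intro w' _ hw'
        have h1 : (x.1 * yInf) w' = 0 := by
          rw [inf_mul_apply276]
          simp only [yInf, Pi.single_eq_of_ne hw', mul_zero]
        rw [h1, map_zero, Complex.zero_re, mul_zero]
      · intro h
        exact absurd (Finset.mem_univ w) h
    rw [htr] at hn
    have hm : w.mult = 1 ∨ w.mult = 2 := by
      unfold InfinitePlace.mult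
      split_ifs <;> simp
    have h4 : ((w.mult : ℤ) : ℝ) = ((-4 * n : ℤ) : ℝ) := by
      push_cast
      linarith
    have h5 : (w.mult : ℤ) = -4 * n := by exact_mod_cast h4
    rcases hm with hm | hm <;> rw [hm] at h5 <;> omega
  have hfin : x.2 = 0 := by
    apply FiniteAdeleRing.ext
    intro v
    by_contra hv
    have hv' : x.2 v ≠ 0 := hv
    obtain ⟨D, hD0, hD⟩ := exists_den276 K
    obtain ⟨N, hN⟩ : ∃ N : ℕ, WithZero.exp (-(N : ℤ)) < v.intValuation D := by
      rw [v.intValuation_eq_exp_neg_multiplicity hD0]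
      refine ⟨multiplicity v.asIdeal (Ideal.span {D}) + 1, ?_⟩
      rw [WithZero.exp_lt_exp]
      push_cast
      omega
    obtain ⟨ξ, hξ1, hξ2, hξ3⟩ := exists_bad_trace276 K D hD v N hN
    have e3 : x.2 * locFin276 K v (algebraMap K (v.adicCompletion K) ξ * (x.2 v)⁻¹)
        = locFin276 K v (algebraMap K (v.adicCompletion K) ξ) := by
      apply FiniteAdeleRing.ext
      intro v'
      rw [fin_mul_apply276]
      by_cases h : v' = v
      · subst h
        rw [locFin_same276, locFin_same276]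
        field_simp
      · rw [locFin_ne276 K v _ v' h, locFin_ne276 K v _ v' h, mul_zero]
    have hy := hx (mkAdl276 K 0
      (locFin276 K v (algebraMap K (v.adicCompletion K) ξ * (x.2 v)⁻¹)))
    rw [psi_apply276, adl_mul_fst276, adl_mul_snd276, mkAdl_fst276, mkAdl_snd276, mul_zero,
      AddChar.map_zero_eq_one, one_mul, e3, psiFin_locFin276 K v ξ hξ2,
      fourierChar_eq_one_iff276] at hy
    obtain ⟨n, hn⟩ := hy
    exact hξ3 ⟨n, by exact_mod_cast hn⟩
  exact Prod.ext hinf hfin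

/-! ## Conductors -/

theorem le_one_of_lt_exp_one276 (a : ℤᵐ⁰) (h : a < WithZero.exp (1 : ℤ)) : a ≤ 1 := by
  rcases eq_or_ne a 0 with rfl | ha
  · exact zero_le_one
  · rw [← WithZero.exp_log ha] at h ⊢
    rw [WithZero.exp_lt_exp] at h
    rw [← WithZero.exp_zero, WithZero.exp_le_exp]
    omega

open IsDedekindDomain.HeightOneSpectrum in
theorem psi_unramAE276 : IsUnramAE K (psi276 K) := by
  classical
  obtain ⟨D, hD0, hD⟩ := exists_den276 K
  have hfin : {v : HeightOneSpectrum (𝓞 K) | v.asIdeal ∣ Ideal.span {D}}.Finite :=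
    Ideal.finite_factors (by simpa [Ideal.span_singleton_eq_bot] using hD0)
  refine ⟨hfin.toFinset, fun v hv => ⟨fun x hx hxv => ?_, ?_⟩⟩
  · rw [psi_apply276, hx.1, AddChar.map_zero_eq_one, one_mul]
    refine psiFin_of_integral276 K _ (fun v' => ?_)
    by_cases h : v' = v
    · subst h
      exact hxv
    · rw [hx.2 v' h]
      exact zero_mem _
  · have hvD : v.intValuation D = 1 := by
      have h4 : ¬ v.asIdeal ∣ Ideal.span {D} := fun h => hv (by simpa using h)
      rw [← v.intValuation_lt_one_iff_dvd, not_lt] at h4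
      exact le_antisymm (v.intValuation_le_one D) h4
    have hN : WithZero.exp (-((1 : ℕ) : ℤ)) < v.intValuation D := by
      rw [hvD, ← WithZero.exp_zero, WithZero.exp_lt_exp]
      simp
    obtain ⟨ξ, hξ1, hξ2, hξ3⟩ := exists_bad_trace276 K D hD v 1 hN
    have hξv : v.valuation K ξ = WithZero.exp (1 : ℤ) := by
      refine le_antisymm (by simpa using hξ1) ?_
      by_contra hlt
      rw [not_le] at hlt
      have hle : v.valuation K ξ ≤ 1 := le_one_of_lt_exp_one276 _ hlt
      have hall : ∀ v' : HeightOneSpectrum (𝓞 K), v'.valuation K ξ ≤ 1 := fun v' => by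
        by_cases h : v' = v
        · subst h
          exact hle
        · exact hξ2 v' h
      have h1 := fourierChar_trace_eq_one276 K ξ hall
      rw [fourierChar_eq_one_iff276] at h1
      obtain ⟨n, hn⟩ := h1
      exact hξ3 ⟨n, by exact_mod_cast hn⟩
    refine ⟨mkAdl276 K 0 (locFin276 K v (algebraMap K (v.adicCompletion K) ξ)),
      ⟨rfl, fun v' h => locFin_ne276 K v _ v' h⟩, ?_, ?_⟩
    · rw [mkAdl_snd276, locFin_same276]
      exact (valuedAdicCompletion_eq_valuation' v ξ).trans hξv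
    · rw [psi_apply276, mkAdl_fst276, mkAdl_snd276, AddChar.map_zero_eq_one, one_mul,
        psiFin_locFin276 K v ξ hξ2, Ne, fourierChar_eq_one_iff276]
      rintro ⟨n, hn⟩
      exact hξ3 ⟨n, by exact_mod_cast hn⟩

/-! ## The leaf -/

theorem psi_isStdChar276 : IsStdChar K (psi276 K) :=
  ⟨continuous_psi276 K, psi_algebraMap276 K, psi_nontrivial276 K⟩

/-- **T3.01 (v2)** `GoodCharExistsC K`, unconditional. -/
theorem goodCharExists276 : GoodCharExistsC K :=
  ⟨psi276 K, psi_isStdChar276 K, psi_nonDeg276 K, psi_unramAE276 K⟩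

/-- The leaf in the shape of `Leaves.goodChar`. -/
theorem leaf_goodChar276 : InLocCompC K → GoodCharExistsC K :=
  fun _ => goodCharExists276 K

end Fermat.Agent.LT.T3.H276

end
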